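import Fermat.Agent.S36.Mod3.H839.UniqAbs

/-!
# S36 / MOD3, leaf UNIQ (helper839)

`Mod3.LeafUniq` is a FORMAL consequence of the leaves `LeafVal`, `LeafSheet`, `LeafQep`,
`LeafChart`, `LeafNR` (only the fields `unif₁ unif₃ ram₂ x_unit_i`, `base_i`, `qep_f`,
`int_α int_β res_*`, `nr_α₂ nr_β₂` are used):

    leafUniq_of_leaves839 : LeafVal → LeafSheet → LeafQep → LeafChart → LeafNR → LeafUniq

Variant without `LeafSheet`, from L2 of cell A2 (`A2.Mod.VinfBasicStatement`: `R_E ⊆ V∞`; proved on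
main, e.g. `A2.Mod.H708.vinfBasic`, passed as a hypothesis so that this file imports nothing new):

    leafUniq_of_vinfBasic839 :
      (∀ P E w, A2.Mod.VinfBasicStatement P E w) → LeafVal → LeafQep → LeafChart → LeafNR → LeafUniq

Abstract core: `UniqAbs.lean` (`partUniq_of_parts839`).
-/

set_option autoImplicit false
set_option linter.style.haveILetI false
set_option linter.unusedSectionVars false
set_option linter.unusedVariables false
set_option synthInstance.maxHeartbeats 400000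
set_option maxHeartbeats 1600000

noncomputable section

namespace Fermat.Agent.S36.Mod3.H839

open ModularCurve AlgebraicCurve
open Fermat.Agent.S18.H138 (chart)
open Fermat.Agent.S36.Eng Fermat.Agent.S36.Mod3

/-- `R_E ⊆ V∞` (from L2 of cell A2). -/
theorem algebraMap_mem_vinf839 (P : ValuationSubring A2.Qb) (E : IntermediateField ℚ A2.Qb)
    (w : A2.RE P E) (hL2 : A2.Mod.VinfBasicStatement P E w) (N : ℕ) (hN : N ≠ 0)
    (hdvr : IsDiscreteValuationRing (A2.RE P E)) (hw : Irreducible w)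
    (V : ValuationSubring (A2.Mod.FE E N)) (hV : A2.Mod.IsVinf P E N V) (r : A2.RE P E) :
    algebraMap (A2.RE P E) (A2.Mod.FE E N) r ∈ V := by
  rw [IsScalarTower.algebraMap_apply (A2.RE P E) E (A2.Mod.FE E N)]
  exact ((hL2 N hN hdvr hw V hV).2.1 _).2 r.2

/-- **LeafUniq from the other leaves** (`R_E ⊆ V_i` from L2 of cell A2). -/
theorem leafUniq_of_vinfBasic839
    (hL2 : ∀ (P : ValuationSubring A2.Qb) (E : IntermediateField ℚ A2.Qb) (w : A2.RE P E),
      A2.Mod.VinfBasicStatement P E w)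
    (hVal : LeafVal) (hQep : LeafQep) (hChart : LeafChart) (hNR : LeafNR) : LeafUniq := by
  intro P E M q _ _ _ w hStd V₁' V₂' V₁ V₂ V₃ W' W hObj
  have hdvr : IsDiscreteValuationRing (A2.RE P E) := hStd.unram.1.dvr
  have hM : M ≠ 0 := NeZero.ne M
  have hq0 : q ≠ 0 := NeZero.ne q
  have hR₁' : ∀ r : A2.RE P E, algebraMap (A2.RE P E) (A2.Mod.FE E (M * q)) r ∈ V₁' :=
    algebraMap_mem_vinf839 P E w (hL2 P E w) (M * q) (mul_ne_zero hM hq0) hdvr hStd.unif V₁'
      hObj.vinf'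
  have hR₁ : ∀ r : A2.RE P E, algebraMap (A2.RE P E) (A2.Mod.FE E (M * q * q)) r ∈ V₁ :=
    algebraMap_mem_vinf839 P E w (hL2 P E w) (M * q * q)
      (mul_ne_zero (mul_ne_zero hM hq0) hq0) hdvr hStd.unif V₁ hObj.vinf
  have hR₃ : ∀ r : A2.RE P E, algebraMap (A2.RE P E) (A2.Mod.FE E (M * q * q)) r ∈ V₃ := by
    intro r
    rw [hObj.vzero, ValuationSubring.mem_comap]
    have e : (W : A2.Mod.FE E (M * q * q) →+* A2.Mod.FE E (M * q * q))
        (algebraMap (A2.RE P E) (A2.Mod.FE E (M * q * q)) r) =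
        algebraMap (A2.RE P E) (A2.Mod.FE E (M * q * q)) r := by
      rw [IsScalarTower.algebraMap_apply (A2.RE P E) E (A2.Mod.FE E (M * q * q))]
      exact W.commutes _
    rw [e]
    exact hR₁ r
  have hR₂ : ∀ r : A2.RE P E, algebraMap (A2.RE P E) (A2.Mod.FE E (M * q * q)) r ∈ V₂ := by
    intro r
    have h := hR₁' r
    rw [← hObj.mid, ValuationSubring.mem_comap] at h
    have e : (A2.Mod.αE E (M * q) q : A2.Mod.FE E (M * q) →+* A2.Mod.FE E (M * q * q))
        (algebraMap (A2.RE P E) (A2.Mod.FE E (M * q)) r) =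
        algebraMap (A2.RE P E) (A2.Mod.FE E (M * q * q)) r :=
      algHom_algebraMap839 (A2.Mod.αE E (M * q) q) r
    rwa [e] at h
  exact partUniq_of_parts839 w q hq0 (A2.Mod.αE E (M * q) q) (A2.Mod.βE E (M * q) q)
    (x3E E M q) (A2.Mod.xE E M q) V₁ V₂ V₃ V₁' V₂' hR₁ hR₂ hR₃
    (hVal P E M q w hStd V₁' V₂' V₁ V₂ V₃ W' W hObj)
    (hQep P E M q w hStd V₁' V₂' V₁ V₂ V₃ W' W hObj).qep_f
    (hChart P E M q w hStd V₁' V₂' V₁ V₂ V₃ W' W hObj)
    (hNR P E M q w hStd V₁' V₂' V₁ V₂ V₃ W' W hObj)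

/-- **LeafUniq from the other leaves.** -/
theorem leafUniq_of_leaves839 (hVal : LeafVal) (hSheet : LeafSheet) (hQep : LeafQep)
    (hChart : LeafChart) (hNR : LeafNR) : LeafUniq := by
  intro P E M q _ _ _ w hStd V₁' V₂' V₁ V₂ V₃ W' W hObj
  have hS := hSheet P E M q w hStd V₁' V₂' V₁ V₂ V₃ W' W hObj
  exact partUniq_of_parts839 w q (NeZero.ne q) (A2.Mod.αE E (M * q) q) (A2.Mod.βE E (M * q) q)
    (x3E E M q) (A2.Mod.xE E M q) V₁ V₂ V₃ V₁' V₂' hS.base₁ hS.base₂ hS.base₃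
    (hVal P E M q w hStd V₁' V₂' V₁ V₂ V₃ W' W hObj)
    (hQep P E M q w hStd V₁' V₂' V₁ V₂ V₃ W' W hObj).qep_f
    (hChart P E M q w hStd V₁' V₂' V₁ V₂ V₃ W' W hObj)
    (hNR P E M q w hStd V₁' V₂' V₁ V₂ V₃ W' W hObj)

end Fermat.Agent.S36.Mod3.H839

end
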