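import Fermat.Agent.S36.Mod3.Spec

/-!
# S36 / MOD3, leaf UNIQ — abstract core (helper839)

`unique_α` and `unique_β` of `Eng.TripleCtx` (= `Mod3.PartUniq`) are FORMAL consequences of the
other fields (no going-up / going-down, no noetherian hypothesis):

* `Qep3` + the multiplicities `(1, q - 1, 1)` ⟹ every closed point of the special fibre of the
  finite chart lies on one of the three components (`through_of_qep839`);
* on `V₁`, `V₂` the chart is `α (Bf') + (Bf ∩ 𝔪_V)` (`res_α₁`, `res_α₂`): a closed point on the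
  component is determined by its image under `α`;
* on `V₃` the extension is radicial: `α (N_α b) ≡ b ^ q` (`nr_α₂`), and `N_α b ∈ Bf'`
  (`int_α` + integrality of norms).

Main statements: `unique_alpha839`, `unique_beta839` (fields passed one by one) and
`partUniq_of_parts839 : PartVal → Qep3 → PartChart → PartNR → PartUniq`.
-/

set_option autoImplicit false
set_option linter.style.haveILetI false
set_option linter.unusedSectionVars false
set_option linter.unusedVariables false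

noncomputable section

namespace Fermat.Agent.S36.Mod3.H839

open AlgebraicCurve Polynomial
open Fermat.Agent.S18.H138 (chart mem_chart)
open Fermat.Agent.S36.Eng

section Chart

variable {R F : Type*} [CommRing R] [Field F] [Algebra R F]

/-- A chart lies in every valuation ring which contains `R` and the coordinates. -/
theorem mem_valuationSubring_of_mem_chart839 (V : ValuationSubring F)
    (hR : ∀ r : R, algebraMap R F r ∈ V) {S : Set F} (hS : ∀ s ∈ S, s ∈ V) {y : F}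
    (hy : y ∈ chart R S) : y ∈ V := by
  rw [mem_chart] at hy
  have hle : ∀ a ∈ Algebra.adjoin R S, a ∈ V := by
    intro a ha
    induction ha using Algebra.adjoin_induction with
    | mem s hs => exact hS s hs
    | algebraMap r => exact hR r
    | add a b _ _ ha hb => exact V.add_mem _ _ ha hb
    | mul a b _ _ ha hb => exact V.mul_mem _ _ ha hb
  let φ : ↥(Algebra.adjoin R S) →+* ↥V :=
    (Algebra.adjoin R S).val.toRingHom.codRestrict V.toSubring fun a => hle a a.2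
  have hy' : IsIntegral ↥V y := by
    have := IsIntegral.map_of_comp_eq (R := ↥(Algebra.adjoin R S)) (S := F) (T := ↥V) (U := F)
      φ (RingHom.id F) (by ext; rfl) hy
    simpa using this
  obtain ⟨z, hz⟩ := IsIntegrallyClosed.isIntegral_iff.1 hy'
  rw [← hz]
  exact z.2

end Chart

section Norm

variable {R E F F' : Type*} [CommRing R] [Field E] [Algebra R E]
  [Field F] [Algebra E F] [Algebra R F] [Field F'] [Algebra E F'] [Algebra R F']

/-- The norm of an element which is integral over the image of a chart lies in the chart. -/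
theorem normAlong_mem_chart839 (α : F' →ₐ[E] F) {S' : Set F'} {b : F}
    (hb : ∃ p : Polynomial F', p.Monic ∧ (∀ i, p.coeff i ∈ chart R S') ∧
      (p.map (α : F' →+* F)).eval b = 0) :
    S29.H395.normAlong α b ∈ chart R S' := by
  letI := algebraAlong α
  obtain ⟨p, hpm, hpc, hpb⟩ := hb
  rw [mem_chart]
  have hlift : p ∈ Polynomial.lifts (algebraMap ↥(integralClosure ↥(Algebra.adjoin R S') F') F') := by
    rw [Polynomial.lifts_iff_coeff_lifts]
    intro n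
    exact ⟨⟨p.coeff n, hpc n⟩, rfl⟩
  obtain ⟨p₀, hp₀, -, hp₀m⟩ := Polynomial.lifts_and_degree_eq_and_monic hlift hpm
  have hC : IsIntegral ↥(integralClosure ↥(Algebra.adjoin R S') F') b := by
    refine ⟨p₀, hp₀m, ?_⟩
    rw [Polynomial.eval₂_eq_eval_map, ← hpb, ← hp₀, Polynomial.map_map]
    rfl
  have hint : IsIntegral ↥(Algebra.adjoin R S') b := isIntegral_trans b hC
  exact Algebra.isIntegral_norm F' hint

end Norm

section Main

variable {R E F F' : Type*} [CommRing R] [Field E] [Algebra R E]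
  [Field F] [Algebra E F] [Algebra R F] [Field F'] [Algebra E F'] [Algebra R F']

/-- `Qep3` is symmetric in the outer components. -/
theorem qep3_swap839 {w : R} {B : Subalgebra R F} {V₁ V₂ V₃ : ValuationSubring F}
    (h : Qep3 w B V₁ V₂ V₃) : Qep3 w B V₃ V₂ V₁ :=
  fun b h3 h2 h1 => h b h1 h2 h3

/-- `IsTriple` is symmetric in the outer components. -/
theorem isTriple_swap839 {B : Subalgebra R F} {𝔪 : Ideal B} {V₁ V₂ V₃ : ValuationSubring F}
    (h : IsTriple B 𝔪 V₁ V₂ V₃) : IsTriple B 𝔪 V₃ V₂ V₁ :=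
  ⟨h.2.2, h.2.1, h.1⟩

/-- An element of a valuation ring which is not in the maximal ideal is a unit. -/
theorem unitAt_of_not_mem_nonunits839 {V : ValuationSubring F} {y : F} (hy : y ∈ V)
    (hy' : y ∉ V.nonunits) : UnitAt V y := by
  rw [ValuationSubring.mem_nonunits_iff_or, not_or, not_not] at hy'
  exact ⟨hy'.1, hy, hy'.2⟩

/-- **Every closed point of the special fibre lies on one of the three components.** -/
theorem through_of_qep839 (w : R) (q : ℕ) (x : F) (V₁ V₂ V₃ : ValuationSubring F)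
    (hB₁ : ∀ b ∈ chart R ({x} : Set F), b ∈ V₁) (hB₂ : ∀ b ∈ chart R ({x} : Set F), b ∈ V₂)
    (hB₃ : ∀ b ∈ chart R ({x} : Set F), b ∈ V₃)
    (unif₁ : UnifAt V₁ (algebraMap R F w)) (unif₃ : UnifAt V₃ (algebraMap R F w))
    (ram₂ : ∃ t : F, UnifAt V₂ t ∧ UnitAt V₂ (algebraMap R F w * (t ^ (q - 1))⁻¹))
    (qep : Qep3 w (chart R ({x} : Set F)) V₁ V₂ V₃)
    (𝔪 : Ideal (chart R ({x} : Set F))) (h𝔪 : 𝔪.IsPrime)
    (hw : algebraMap R (chart R ({x} : Set F)) w ∈ 𝔪) :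
    Through _ 𝔪 V₁ ∨ Through _ 𝔪 V₂ ∨ Through _ 𝔪 V₃ := by
  by_contra hcon
  rw [not_or, not_or] at hcon
  obtain ⟨h1, h2, h3⟩ := hcon
  unfold Through at h1 h2 h3
  rw [not_forall] at h1 h2 h3
  obtain ⟨b₁, hb₁⟩ := h1
  obtain ⟨b₂, hb₂⟩ := h2
  obtain ⟨b₃, hb₃⟩ := h3
  rw [Classical.not_imp] at hb₁ hb₂ hb₃
  obtain ⟨t, ht, hu⟩ := ram₂
  have hw0 : algebraMap R F w ≠ 0 := unif₁.1
  have hT0 : t ^ (q - 1) ≠ 0 := pow_ne_zero _ ht.1
  have k1 : ((b₁ * b₂ ^ (q - 1) * b₃ : chart R ({x} : Set F)) : F) * (algebraMap R F w)⁻¹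
      ∈ V₁ := by
    have e : ((b₁ * b₂ ^ (q - 1) * b₃ : chart R ({x} : Set F)) : F) * (algebraMap R F w)⁻¹ =
        ((b₁ : F) * (algebraMap R F w)⁻¹) * ((b₂ : F) ^ (q - 1) * (b₃ : F)) := by
      push_cast
      ring
    rw [e]
    exact V₁.mul_mem _ _ (unif₁.2.2 _ hb₁.1)
      (V₁.mul_mem _ _ (pow_mem (hB₁ _ b₂.2) _) (hB₁ _ b₃.2))
  have k2 : ((b₁ * b₂ ^ (q - 1) * b₃ : chart R ({x} : Set F)) : F) * (algebraMap R F w)⁻¹
      ∈ V₂ := by
    have e : ((b₁ * b₂ ^ (q - 1) * b₃ : chart R ({x} : Set F)) : F) * (algebraMap R F w)⁻¹ =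
        (b₁ : F) * (((b₂ : F) * t⁻¹) ^ (q - 1) *
          (algebraMap R F w * (t ^ (q - 1))⁻¹)⁻¹) * (b₃ : F) := by
      push_cast
      have ht0 : t ≠ 0 := ht.1
      rw [mul_pow, mul_inv, inv_inv, inv_pow]
      field_simp
    rw [e]
    exact V₂.mul_mem _ _ (V₂.mul_mem _ _ (hB₂ _ b₁.2)
      (V₂.mul_mem _ _ (pow_mem (ht.2.2 _ hb₂.1) _) hu.2.2)) (hB₂ _ b₃.2)
  have k3 : ((b₁ * b₂ ^ (q - 1) * b₃ : chart R ({x} : Set F)) : F) * (algebraMap R F w)⁻¹
      ∈ V₃ := by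
    have e : ((b₁ * b₂ ^ (q - 1) * b₃ : chart R ({x} : Set F)) : F) * (algebraMap R F w)⁻¹ =
        ((b₁ : F) * (b₂ : F) ^ (q - 1)) * ((b₃ : F) * (algebraMap R F w)⁻¹) := by
      push_cast
      ring
    rw [e]
    exact V₃.mul_mem _ _ (V₃.mul_mem _ _ (hB₃ _ b₁.2) (pow_mem (hB₃ _ b₂.2) _))
      (unif₃.2.2 _ hb₃.1)
  have key : b₁ * b₂ ^ (q - 1) * b₃ ∈ 𝔪 := by
    obtain ⟨c, hc⟩ := qep (b₁ * b₂ ^ (q - 1) * b₃) k1 k2 k3
    rw [hc]
    exact 𝔪.mul_mem_right _ hw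
  rcases h𝔪.mem_or_mem key with h | h
  · rcases h𝔪.mem_or_mem h with h | h
    · exact hb₁.2 h
    · exact hb₂.2 (h𝔪.mem_of_pow_mem _ h)
  · exact hb₃.2 h

variable [IsScalarTower R E F] [IsScalarTower R E F']

/-- `α` is `R`-linear on constants. -/
theorem algHom_algebraMap839 (α : F' →ₐ[E] F) (r : R) :
    α (algebraMap R F' r) = algebraMap R F r := by
  rw [IsScalarTower.algebraMap_apply R E F', IsScalarTower.algebraMap_apply R E F, α.commutes]

/-- **UNIQ along `α`** (fields of `Eng.TripleCtx` passed one by one): a triple point is the only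
closed point of the finite chart over its image under `α`. -/
theorem unique_alpha839 (w : R) (q : ℕ) (hq : q ≠ 0) (α : F' →ₐ[E] F) (x : F) (x' : F')
    (V₁ V₂ V₃ : ValuationSubring F)
    (hB₁ : ∀ b ∈ chart R ({x} : Set F), b ∈ V₁) (hB₂ : ∀ b ∈ chart R ({x} : Set F), b ∈ V₂)
    (hB₃ : ∀ b ∈ chart R ({x} : Set F), b ∈ V₃)
    (unif₁ : UnifAt V₁ (algebraMap R F w)) (unif₃ : UnifAt V₃ (algebraMap R F w))
    (ram₂ : ∃ t : F, UnifAt V₂ t ∧ UnitAt V₂ (algebraMap R F w * (t ^ (q - 1))⁻¹))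
    (qep : Qep3 w (chart R ({x} : Set F)) V₁ V₂ V₃)
    (int_α : ∀ b ∈ chart R ({x} : Set F), ∃ p : Polynomial F', p.Monic ∧
      (∀ i, p.coeff i ∈ chart R ({x'} : Set F')) ∧ (p.map (α : F' →+* F)).eval b = 0)
    (res_α₁ : ∀ b ∈ chart R ({x} : Set F), ∃ b' ∈ chart R ({x'} : Set F'),
      b - α b' ∈ V₁.nonunits)
    (res_α₂ : ∀ b ∈ chart R ({x} : Set F), ∃ b' ∈ chart R ({x'} : Set F'),
      b - α b' ∈ V₂.nonunits)
    (nr_α₂ : ∀ y : F, UnitAt V₃ y → α (S29.H395.normAlong α y) - y ^ q ∈ V₃.nonunits)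
    (hα : ∀ b ∈ chart R ({x'} : Set F'), α b ∈ chart R ({x} : Set F))
    (𝔪 𝔪' : Ideal (chart R ({x} : Set F))) (h𝔪 : 𝔪.IsMaximal) (h𝔪' : 𝔪'.IsMaximal)
    (htri : IsTriple _ 𝔪 V₁ V₂ V₃)
    (hsub : ∀ (b' : F') (h : b' ∈ chart R ({x'} : Set F')),
      (⟨α b', hα b' h⟩ : chart R ({x} : Set F)) ∈ 𝔪 →
        (⟨α b', hα b' h⟩ : chart R ({x} : Set F)) ∈ 𝔪') : 𝔪' = 𝔪 := by
  have hw𝔪 : algebraMap R (chart R ({x} : Set F)) w ∈ 𝔪 := htri.1 _ unif₁.2.1
  have hwe : (⟨α (algebraMap R F' w), hα _ (Subalgebra.algebraMap_mem _ w)⟩ :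
      chart R ({x} : Set F)) = algebraMap R (chart R ({x} : Set F)) w :=
    Subtype.ext (algHom_algebraMap839 α w)
  have hw𝔪' : algebraMap R (chart R ({x} : Set F)) w ∈ 𝔪' := by
    rw [← hwe]
    exact hsub _ (Subalgebra.algebraMap_mem _ w) (by rw [hwe]; exact hw𝔪)
  have hle : 𝔪 ≤ 𝔪' := by
    -- the two "residue degree one" cases
    have hres : ∀ V : ValuationSubring F, Through _ 𝔪 V → Through _ 𝔪' V →
        (∀ b ∈ chart R ({x} : Set F), ∃ b' ∈ chart R ({x'} : Set F'), b - α b' ∈ V.nonunits) →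
        𝔪 ≤ 𝔪' := by
      intro V hV hV' hres b hb
      obtain ⟨b', hb', hbb'⟩ := hres b b.2
      have hc : b - ⟨α b', hα b' hb'⟩ ∈ 𝔪 := hV _ hbb'
      have hc' : b - ⟨α b', hα b' hb'⟩ ∈ 𝔪' := hV' _ hbb'
      have h1 : (⟨α b', hα b' hb'⟩ : chart R ({x} : Set F)) ∈ 𝔪 := by
        have := 𝔪.sub_mem hb hc
        rwa [sub_sub_cancel] at this
      have h2 := hsub b' hb' h1
      have := 𝔪'.add_mem hc' h2
      rwa [sub_add_cancel] at this
    rcases through_of_qep839 w q x V₁ V₂ V₃ hB₁ hB₂ hB₃ unif₁ unif₃ ram₂ qep 𝔪'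
      h𝔪'.isPrime hw𝔪' with h | h | h
    · exact hres V₁ htri.1 h res_α₁
    · exact hres V₂ htri.2.1 h res_α₂
    · intro b hb
      by_cases hbu : (b : F) ∈ V₃.nonunits
      · exact h b hbu
      · have hu : UnitAt V₃ (b : F) := unitAt_of_not_mem_nonunits839 (hB₃ _ b.2) hbu
        have hN : S29.H395.normAlong α (b : F) ∈ chart R ({x'} : Set F') :=
          normAlong_mem_chart839 α (int_α b b.2)
        have hnr := nr_α₂ b hu
        have hc : (⟨α (S29.H395.normAlong α (b : F)), hα _ hN⟩ : chart R ({x} : Set F)) - b ^ q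
            ∈ 𝔪 := htri.2.2 _ hnr
        have hc' : (⟨α (S29.H395.normAlong α (b : F)), hα _ hN⟩ : chart R ({x} : Set F)) - b ^ q
            ∈ 𝔪' := h _ hnr
        have hbq : b ^ q ∈ 𝔪 := 𝔪.pow_mem_of_mem hb q (Nat.pos_of_ne_zero hq)
        have h1 : (⟨α (S29.H395.normAlong α (b : F)), hα _ hN⟩ : chart R ({x} : Set F)) ∈ 𝔪 := by
          have := 𝔪.add_mem hc hbq
          rwa [sub_add_cancel] at this
        have h2 := hsub _ hN h1
        have h3 : b ^ q ∈ 𝔪' := by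
          have := 𝔪'.sub_mem h2 hc'
          rwa [sub_sub_cancel] at this
        exact h𝔪'.isPrime.mem_of_pow_mem _ h3
  exact (h𝔪.eq_of_le h𝔪'.ne_top hle).symm

/-- **UNIQ along `β`**: the same with the roles of `V₁` and `V₃` exchanged. -/
theorem unique_beta839 (w : R) (q : ℕ) (hq : q ≠ 0) (β : F' →ₐ[E] F) (x : F) (x' : F')
    (V₁ V₂ V₃ : ValuationSubring F)
    (hB₁ : ∀ b ∈ chart R ({x} : Set F), b ∈ V₁) (hB₂ : ∀ b ∈ chart R ({x} : Set F), b ∈ V₂)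
    (hB₃ : ∀ b ∈ chart R ({x} : Set F), b ∈ V₃)
    (unif₁ : UnifAt V₁ (algebraMap R F w)) (unif₃ : UnifAt V₃ (algebraMap R F w))
    (ram₂ : ∃ t : F, UnifAt V₂ t ∧ UnitAt V₂ (algebraMap R F w * (t ^ (q - 1))⁻¹))
    (qep : Qep3 w (chart R ({x} : Set F)) V₁ V₂ V₃)
    (int_β : ∀ b ∈ chart R ({x} : Set F), ∃ p : Polynomial F', p.Monic ∧
      (∀ i, p.coeff i ∈ chart R ({x'} : Set F')) ∧ (p.map (β : F' →+* F)).eval b = 0)
    (res_β₃ : ∀ b ∈ chart R ({x} : Set F), ∃ b' ∈ chart R ({x'} : Set F'),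
      b - β b' ∈ V₃.nonunits)
    (res_β₂ : ∀ b ∈ chart R ({x} : Set F), ∃ b' ∈ chart R ({x'} : Set F'),
      b - β b' ∈ V₂.nonunits)
    (nr_β₂ : ∀ y : F, UnitAt V₁ y → β (S29.H395.normAlong β y) - y ^ q ∈ V₁.nonunits)
    (hβ : ∀ b ∈ chart R ({x'} : Set F'), β b ∈ chart R ({x} : Set F))
    (𝔪 𝔪' : Ideal (chart R ({x} : Set F))) (h𝔪 : 𝔪.IsMaximal) (h𝔪' : 𝔪'.IsMaximal)
    (htri : IsTriple _ 𝔪 V₁ V₂ V₃)
    (hsub : ∀ (b' : F') (h : b' ∈ chart R ({x'} : Set F')),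
      (⟨β b', hβ b' h⟩ : chart R ({x} : Set F)) ∈ 𝔪 →
        (⟨β b', hβ b' h⟩ : chart R ({x} : Set F)) ∈ 𝔪') : 𝔪' = 𝔪 :=
  unique_alpha839 w q hq β x x' V₃ V₂ V₁ hB₃ hB₂ hB₁ unif₃ unif₁ ram₂ (qep3_swap839 qep)
    int_β res_β₃ res_β₂ nr_β₂ hβ 𝔪 𝔪' h𝔪 h𝔪' (isTriple_swap839 htri) hsub

/-- **`PartUniq` is a formal consequence of `PartVal`, `Qep3` (finite chart), `PartChart` and
`PartNR`**, as soon as `R` lies in the three valuation rings. -/
theorem partUniq_of_parts839 (w : R) (q : ℕ) (hq : q ≠ 0) (α β : F' →ₐ[E] F) (x : F) (x' : F')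
    (V₁ V₂ V₃ : ValuationSubring F) (V₁' V₂' : ValuationSubring F')
    (hR₁ : ∀ r : R, algebraMap R F r ∈ V₁) (hR₂ : ∀ r : R, algebraMap R F r ∈ V₂)
    (hR₃ : ∀ r : R, algebraMap R F r ∈ V₃)
    (hval : PartVal w q x V₁ V₂ V₃) (hqep : Qep3 w (chart R ({x} : Set F)) V₁ V₂ V₃)
    (hchart : PartChart R α β x x' V₁ V₂ V₃) (hnr : PartNR q α β V₁ V₂ V₃ V₁' V₂') :
    PartUniq R α β x x' V₁ V₂ V₃ := by
  have hB₁ : ∀ b ∈ chart R ({x} : Set F), b ∈ V₁ := fun b hb =>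
    mem_valuationSubring_of_mem_chart839 V₁ hR₁
      (fun s hs => by rw [Set.mem_singleton_iff.1 hs]; exact hval.x_unit₁.2.1) hb
  have hB₂ : ∀ b ∈ chart R ({x} : Set F), b ∈ V₂ := fun b hb =>
    mem_valuationSubring_of_mem_chart839 V₂ hR₂
      (fun s hs => by rw [Set.mem_singleton_iff.1 hs]; exact hval.x_unit₂.2.1) hb
  have hB₃ : ∀ b ∈ chart R ({x} : Set F), b ∈ V₃ := fun b hb =>
    mem_valuationSubring_of_mem_chart839 V₃ hR₃
      (fun s hs => by rw [Set.mem_singleton_iff.1 hs]; exact hval.x_unit₃.2.1) hb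
  refine ⟨?_, ?_⟩
  · intro hα 𝔪 𝔪' h𝔪 h𝔪' htri hsub
    exact unique_alpha839 w q hq α x x' V₁ V₂ V₃ hB₁ hB₂ hB₃ hval.unif₁ hval.unif₃ hval.ram₂
      hqep hchart.int_α hchart.res_α₁ hchart.res_α₂ hnr.nr_α₂ hα 𝔪 𝔪' h𝔪 h𝔪' htri hsub
  · intro hβ 𝔪 𝔪' h𝔪 h𝔪' htri hsub
    exact unique_beta839 w q hq β x x' V₁ V₂ V₃ hB₁ hB₂ hB₃ hval.unif₁ hval.unif₃ hval.ram₂
      hqep hchart.int_β hchart.res_β₃ hchart.res_β₂ hnr.nr_β₂ hβ 𝔪 𝔪' h𝔪 h𝔪' htri hsub

end Main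

end Fermat.Agent.S36.Mod3.H839

end
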